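import Fermat.Agent.S16.H756.Disc
import Fermat.Agent.S16.H722.Weil

/-!
# S16 / WP TH (helper756): `theta_mem_MF` in exact skeleton shape

The theta series `Θ_d`, `d ∈ D = ℤ⁴ / A ℤ⁴`, of a good lattice form a `H722.WeilSystem`
(`T` from the evenness, `S` from the inversion hypothesis by regrouping the dual sum over the
cosets of `A ℤ⁴`), hence `θ_A = Θ_0 ∈ M₂(Γ₀(p))`.
-/

set_option autoImplicit false

namespace Fermat.Agent.S16.H756

open Complex Real Matrix ModularForm CongruenceSubgroup MatrixGroups ModularFormClass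
open UpperHalfPlane hiding I
open Fermat.Agent.S20 (MF SF)
open scoped Manifold

noncomputable section

section regroup

variable {n : ℕ} {A : Matrix (Fin n) (Fin n) ℤ} {B : Matrix (Fin n) (Fin n) ℝ}

/-- regrouping of the dual sum over the cosets of `A ℤⁿ`. -/
theorem hasSum_regroup (hL : LatticePair A B) {τ : ℂ} (hs : Summable (thetaTerm B τ))
    (r : DiscGroup A → (Fin n → ℤ)) (hr : ∀ d, toDisc A (r d) = d) (c' : Fin n → ℤ) :
    HasSum (fun d : DiscGroup A => pairC B (r d) c' * thetaCoset A B (r d) τ)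
      (∑' y : Fin n → ℤ, thetaTerm B τ y * pairC B y c') := by
  have hsF : Summable (fun y : Fin n → ℤ => thetaTerm B τ y * pairC B y c') := by
    refine Summable.of_norm ?_
    refine hs.norm.congr fun y => ?_
    rw [norm_mul, norm_pairC, mul_one]
  have h2 := hsF.hasSum.tsum_fiberwise (toDisc A)
  have key : (fun d : DiscGroup A => ∑' y : ↥(toDisc A ⁻¹' {d}),
        thetaTerm B τ y * pairC B y c') =
      fun d => pairC B (r d) c' * thetaCoset A B (r d) τ := by
    funext d
    have h3 := tsum_fibre_of_eq hL (fun y => thetaTerm B τ y * pairC B y c') (hr d)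
    rw [h3, thetaCoset, ← tsum_mul_left]
    refine tsum_congr fun x => ?_
    rw [pairC_add_mulVec_left hL, mul_comm]
  rwa [key] at h2

end regroup

variable {p : ℕ} {A B : Matrix (Fin 4) (Fin 4) ℤ}

/-- the theta series attached to a class of the discriminant group. -/
def thetaD (p : ℕ) (A B : Matrix (Fin 4) (Fin 4) ℤ) (d : DiscGroup A) : ℍ → ℂ :=
  thetaH A (invR p B) (rep d)

lemma thetaD_toDisc (y : Fin 4 → ℤ) :
    thetaD p A B (toDisc A y) = thetaH A (invR p B) y := by
  obtain ⟨x, hx⟩ := exists_eq_rep_add (A := A) y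
  funext z
  conv_rhs => rw [hx]
  unfold thetaD thetaH
  rw [thetaCoset_add_mulVec]

lemma thetaD_zero [Fact p.Prime] (hA : IsGoodLattice p A B) :
    thetaD p A B 0 = Fermat.Agent.S16.thetaFun A := by
  rw [← toDisc_zero, thetaD_toDisc, thetaFun_eq_thetaH hA]

/-- `e(q(y)) = exp (π i yᵀ A⁻¹ y)`. -/
lemma stdAddChar_qz [hp : Fact p.Prime] (hA : IsGoodLattice p A B) (y : Fin 4 → ℤ) :
    (ZMod.stdAddChar (qz p B y) : ℂ) = cexp (π * I * (qf (invR p B) (vR y) : ℝ)) := by
  have hp0 : (p : ℂ) ≠ 0 := by exact_mod_cast hp.out.ne_zero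
  rw [qz, ZMod.stdAddChar_coe, qf_invR, Fermat.Agent.S16.qf, ← two_mul_hnB hA]
  congr 1
  push_cast
  field_simp

/-- `e(b(y, w)) = exp (2 π i yᵀ A⁻¹ w)`. -/
lemma stdAddChar_bz [hp : Fact p.Prime] (y w : Fin 4 → ℤ) :
    (ZMod.stdAddChar (bz p B y w) : ℂ) = pairC (invR p B) y w := by
  have hp0 : (p : ℂ) ≠ 0 := by exact_mod_cast hp.out.ne_zero
  rw [bz, ZMod.stdAddChar_coe, pairC, bf, invR, Matrix.smul_mulVec, dotProduct_smul,
    smul_eq_mul, ← vR_mulVec, vR_dotProduct, bfB]
  congr 1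
  push_cast
  field_simp

lemma slash_T_apply (f : ℍ → ℂ) (k : ℤ) (z : ℍ) :
    (f ∣[k] ModularGroup.T) z = f ((1 : ℝ) +ᵥ z) := by
  rw [SL_slash_apply, UpperHalfPlane.modular_T_smul]
  have : denom (ModularGroup.T) z = 1 := by
    simp [ModularGroup.denom_apply, ModularGroup.T]
  rw [this, _root_.one_zpow, mul_one]

lemma coe_one_vadd (z : ℍ) : (((1 : ℝ) +ᵥ z : ℍ) : ℂ) = (z : ℂ) + 1 := by
  rw [UpperHalfPlane.coe_vadd]; push_cast; ring

/-- the `T`-transformation of `Θ_d`. -/
theorem thetaD_slash_T [Fact p.Prime] (hA : IsGoodLattice p A B) (d : DiscGroup A) :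
    thetaD p A B d ∣[(2 : ℤ)] ModularGroup.T =
      (ZMod.stdAddChar (qD p A B d) : ℂ) • thetaD p A B d := by
  funext z
  rw [slash_T_apply, Pi.smul_apply, smul_eq_mul]
  unfold thetaD thetaH
  rw [coe_one_vadd, thetaCoset_add_one (latticePair_of_good hA), qD, stdAddChar_qz hA]

lemma slash_S_apply (f : ℍ → ℂ) (z : ℍ) :
    (f ∣[(2 : ℤ)] ModularGroup.S) z = f (ModularGroup.S • z) * (z : ℂ) ^ (-2 : ℤ) := by
  rw [SL_slash_apply, ModularGroup.denom_S]

/-- the dual term of the interface inversion formula. -/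
lemma iface_dual_term [hp : Fact p.Prime] (y w : Fin 4 → ℤ) (z : ℍ) :
    Complex.exp (Real.pi * Complex.I * z * ((Fermat.Agent.S16.qf B w : ℂ) / p) +
        2 * Real.pi * Complex.I * (((w ⬝ᵥ B.mulVec y : ℤ) : ℂ) / p)) =
      thetaTerm (invR p B) (z : ℂ) w * pairC (invR p B) w y := by
  have hp0 : (p : ℂ) ≠ 0 := by exact_mod_cast hp.out.ne_zero
  rw [thetaTerm, ← stdAddChar_bz, bz, ZMod.stdAddChar_coe, ← Complex.exp_add, qf_invR, bfB]
  congr 1
  push_cast
  ring

/-- the `S`-transformation of `Θ_d`, from the inversion hypothesis. -/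
theorem thetaD_slash_S [hp : Fact p.Prime] [Fintype (DiscGroup A)]
    (hA : IsGoodLattice p A B) (hinv : ThetaInv p A B) (d : DiscGroup A) :
    thetaD p A B d ∣[(2 : ℤ)] ModularGroup.S =
      (-(p : ℂ)⁻¹) • ∑ k : DiscGroup A,
        (ZMod.stdAddChar (1 * bD p A B d k) : ℂ) • thetaD p A B k := by
  funext z
  have hz : (z : ℂ) ≠ 0 := UpperHalfPlane.ne_zero z
  have hL := latticePair_of_good hA
  rw [slash_S_apply]
  have h1 : thetaD p A B d (ModularGroup.S • z) =
      Fermat.Agent.S16.thetaChar p A B (rep d) (ModularGroup.S • z) := by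
    rw [thetaChar_eq_thetaH hA]; rfl
  rw [h1, hinv (rep d) z]
  have h2 : (∑' w : Fin 4 → ℤ,
        Complex.exp (Real.pi * Complex.I * z * ((Fermat.Agent.S16.qf B w : ℂ) / p) +
          2 * Real.pi * Complex.I * (((w ⬝ᵥ B.mulVec (rep d) : ℤ) : ℂ) / p))) =
      ∑' w : Fin 4 → ℤ, thetaTerm (invR p B) (z : ℂ) w * pairC (invR p B) w (rep d) :=
    tsum_congr fun w => iface_dual_term (rep d) w z
  have h3 := (hasSum_regroup hL (summable_thetaTerm (posDef_invR hA) z.im_pos) rep toDisc_rep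
    (rep d)).tsum_eq
  rw [h2, ← h3, tsum_fintype]
  simp only [Pi.smul_apply, Finset.sum_apply, smul_eq_mul, one_mul]
  have h4 : ∀ k : DiscGroup A, (ZMod.stdAddChar (bD p A B d k) : ℂ) * thetaD p A B k z =
      pairC (invR p B) (rep k) (rep d) * thetaCoset A (invR p B) (rep k) (z : ℂ) := by
    intro k
    rw [bD, stdAddChar_bz, pairC_comm hL]
    rfl
  rw [Finset.sum_congr rfl fun k _ => h4 k]
  field_simp

/-- `θ_A ≠ 0`. -/
theorem thetaFun_ne_zero [Fact p.Prime] (hA : IsGoodLattice p A B) :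
    Fermat.Agent.S16.thetaFun A ≠ 0 := by
  intro h0
  have hper := Fermat.Agent.S24.JFun.periodic_comp_ofComplex_of_vadd (thetaFun_vadd hA)
  have han : AnalyticAt ℂ (cuspFunction 1 (Fermat.Agent.S16.thetaFun A)) 0 :=
    analyticAt_cuspFunction_zero one_pos hper (mdiff_thetaFun hA) (isBoundedAtImInfty_thetaFun hA)
  have h1 := Fermat.Agent.S24.JFun.qExpansion_coeff_unique_fun han (hasSum_thetaFun hA) 0
  have h2 := Fermat.Agent.S24.JFun.qExpansion_coeff_unique_fun (c := fun _ => 0) han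
    (fun τ => by
      rw [h0]
      simp) 0
  rw [h2, repNum_zero (latticePair_of_good hA) (posDef_invR hA)] at h1
  simp at h1

/-- **WP TH (main)**, exact skeleton statement `Skel.theta_mem_MF`. -/
theorem theta_mem_MF (p : ℕ) [Fact p.Prime] (A B : Matrix (Fin 4) (Fin 4) ℤ)
    (hA : IsGoodLattice p A B)
    (hinv : ∀ (y : Fin 4 → ℤ) (z : ℍ),
      Fermat.Agent.S16.thetaChar p A B y (ModularGroup.S • z) =
      -(z : ℂ) ^ 2 / p * ∑' w : Fin 4 → ℤ,
        Complex.exp (Real.pi * Complex.I * z * ((Fermat.Agent.S16.qf B w : ℂ) / p) +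
          2 * Real.pi * Complex.I * (((w ⬝ᵥ B.mulVec y : ℤ) : ℂ) / p))) :
    Fermat.Agent.S16.thetaFun A ∈ MF (Gamma0 p) 2 := by
  classical
  have hfin := finite_discGroup_of_good hA
  let _ : Fintype (DiscGroup A) := Fintype.ofFinite _
  let W : Fermat.Agent.S16.H722.WeilSystem p (DiscGroup A) :=
    { q := qD p A B
      b := bD p A B
      s := 1
      s_mul_s := one_mul 1
      q_add := qD_add hA
      q_smul := qD_zsmul hA
      b_add_left := bD_add_left hA
      b_nondeg := bD_nondeg hA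
      card_eq := by
        rw [← Nat.card_eq_fintype_card]
        exact card_discGroup_of_good hA
      Θ := thetaD p A B
      slash_T := thetaD_slash_T hA
      slash_S := thetaD_slash_S hA hinv
      ne_zero := by
        rw [thetaD_zero hA]
        exact thetaFun_ne_zero hA }
  have hΘ0 : W.Θ 0 = thetaFun A := thetaD_zero hA
  have hbdd : ∀ h, IsBoundedAtImInfty (W.Θ h) := fun h =>
    isBoundedAtImInfty_thetaH (posDef_invR hA) (latticePair_of_good hA) (rep h)
  rw [← hΘ0]
  refine ⟨?_, fun γ hγ => W.slash_Gamma0 γ hγ, fun γ => W.isBoundedAtImInfty_slash hbdd γ⟩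
  exact mdifferentiable_thetaH (posDef_invR hA) (latticePair_of_good hA) (rep 0)

end

end Fermat.Agent.S16.H756
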