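import Fermat.Agent.S16.H756.ThetaBasic

/-!
# S16 / WP L-th (helper756): summability of theta series of positive definite forms
-/

namespace Fermat.Agent.S16.H756

open Complex Real Matrix

noncomputable section

variable {n : ℕ}

/-- one-dimensional Gaussian sums converge. -/
lemma summable_exp_neg_mul_int_sq {c : ℝ} (hc : 0 < c) :
    Summable (fun k : ℤ => rexp (-(c * (k : ℝ) ^ 2))) := by
  have hτ : 0 < ((c / π : ℝ) * I : ℂ).im := by
    simp only [Complex.mul_im, Complex.ofReal_re, Complex.I_im, mul_one, Complex.ofReal_im,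
      Complex.I_re, mul_zero, add_zero]
    positivity
  have h := ((summable_jacobiTheta₂_term_iff 0 ((c / π : ℝ) * I)).mpr hτ).norm
  refine h.congr fun k => ?_
  rw [norm_jacobiTheta₂_term]
  congr 1
  simp only [Complex.mul_im, Complex.ofReal_re, Complex.I_im, mul_one, Complex.ofReal_im,
    Complex.I_re, mul_zero, add_zero, Complex.zero_im]
  field_simp
  ring

/-- the Gaussian sum over `ℤⁿ` for the standard form converges. -/
lemma summable_exp_neg_sum_sq {c : ℝ} (hc : 0 < c) :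
    ∀ n : ℕ, Summable (fun x : Fin n → ℤ => rexp (-(c * ∑ i, (x i : ℝ) ^ 2)))
  | 0 => Summable.of_finite
  | n + 1 => by
    have ih := summable_exp_neg_sum_sq hc n
    have h1 := summable_exp_neg_mul_int_sq hc
    have h2 : Summable (fun p : ℤ × (Fin n → ℤ) =>
        rexp (-(c * (p.1 : ℝ) ^ 2)) * rexp (-(c * ∑ i, (p.2 i : ℝ) ^ 2))) :=
      Summable.mul_of_nonneg h1 ih (fun _ => (Real.exp_pos _).le) (fun _ => (Real.exp_pos _).le)
    have h3 := (Fin.consEquiv (fun _ : Fin (n + 1) => ℤ)).symm.summable_iff.mpr h2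
    refine h3.congr fun x => ?_
    simp only [Function.comp_apply, Fin.consEquiv_symm_apply, ← Real.exp_add]
    congr 1
    rw [Fin.sum_univ_succ]
    simp only [Fin.tail]
    ring

lemma qf_smul (M : Matrix (Fin n) (Fin n) ℝ) (a : ℝ) (v : Fin n → ℝ) :
    qf M (a • v) = a ^ 2 * qf M v := by
  simp only [qf, mulVec_smul, dotProduct_smul, smul_dotProduct, smul_eq_mul]
  ring

lemma continuous_qf (M : Matrix (Fin n) (Fin n) ℝ) : Continuous (qf M) := by
  unfold qf
  simp only [dotProduct, mulVec]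
  fun_prop

lemma qf_pos_of_posDef {M : Matrix (Fin n) (Fin n) ℝ} (hM : M.PosDef) {v : Fin n → ℝ}
    (hv : v ≠ 0) : 0 < qf M v := by
  have := hM.dotProduct_mulVec_pos hv
  simpa [qf] using this

lemma qf_nonneg_of_posDef {M : Matrix (Fin n) (Fin n) ℝ} (hM : M.PosDef) (v : Fin n → ℝ) :
    0 ≤ qf M v := by
  rcases eq_or_ne v 0 with rfl | hv
  · simp
  · exact (qf_pos_of_posDef hM hv).le

/-- A positive definite form dominates a multiple of the standard form. -/
lemma exists_pos_mul_le_qf {M : Matrix (Fin n) (Fin n) ℝ} (hM : M.PosDef) :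
    ∃ c : ℝ, 0 < c ∧ ∀ v : Fin n → ℝ, c * ∑ i, v i ^ 2 ≤ qf M v := by
  rcases Nat.eq_zero_or_pos n with rfl | hn
  · exact ⟨1, one_pos, fun v => by simp [qf]⟩
  have : Nonempty (Fin n) := ⟨⟨0, hn⟩⟩
  have : Nontrivial (Fin n → ℝ) := inferInstance
  have hcomp : IsCompact (Metric.sphere (0 : Fin n → ℝ) 1) := isCompact_sphere 0 1
  have hne : (Metric.sphere (0 : Fin n → ℝ) 1).Nonempty :=
    NormedSpace.sphere_nonempty.mpr zero_le_one
  obtain ⟨x₀, hx₀, hmin⟩ := hcomp.exists_isMinOn hne (continuous_qf M).continuousOn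
  have hx₀' : x₀ ≠ 0 := by
    rintro rfl
    simp at hx₀
  have hc₀ : 0 < qf M x₀ := qf_pos_of_posDef hM hx₀'
  refine ⟨qf M x₀ / n, by positivity, fun v => ?_⟩
  rcases eq_or_ne v 0 with rfl | hv
  · simp [qf]
  have hnv : 0 < ‖v‖ := norm_pos_iff.mpr hv
  have hu : ‖v‖⁻¹ • v ∈ Metric.sphere (0 : Fin n → ℝ) 1 := by
    rw [mem_sphere_zero_iff_norm, norm_smul, norm_inv, norm_norm, inv_mul_cancel₀ hnv.ne']
  have h1 : qf M x₀ ≤ qf M (‖v‖⁻¹ • v) := hmin hu
  rw [qf_smul] at h1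
  have h2 : qf M x₀ * ‖v‖ ^ 2 ≤ qf M v := by
    have := mul_le_mul_of_nonneg_right h1 (sq_nonneg ‖v‖)
    have h3 : (‖v‖⁻¹) ^ 2 * qf M v * ‖v‖ ^ 2 = qf M v := by
      field_simp
    linarith
  have h4 : ∑ i, v i ^ 2 ≤ n * ‖v‖ ^ 2 := by
    have : ∀ i ∈ Finset.univ, v i ^ 2 ≤ ‖v‖ ^ 2 := fun i _ => by
      have := norm_le_pi_norm v i
      rw [Real.norm_eq_abs] at this
      calc v i ^ 2 = |v i| ^ 2 := (sq_abs _).symm
        _ ≤ ‖v‖ ^ 2 := by gcongr
    calc ∑ i, v i ^ 2 ≤ ∑ _i : Fin n, ‖v‖ ^ 2 := Finset.sum_le_sum this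
      _ = n * ‖v‖ ^ 2 := by simp
  have hn' : (0 : ℝ) < n := by exact_mod_cast hn
  calc qf M x₀ / n * ∑ i, v i ^ 2 ≤ qf M x₀ / n * (n * ‖v‖ ^ 2) := by gcongr
    _ = qf M x₀ * ‖v‖ ^ 2 := by field_simp
    _ ≤ qf M v := h2

/-- **Summability of the theta series of a positive definite form** (norm version). -/
theorem summable_exp_neg_qf {M : Matrix (Fin n) (Fin n) ℝ} (hM : M.PosDef) {c : ℝ}
    (hc : 0 < c) : Summable (fun x : Fin n → ℤ => rexp (-(c * qf M (vR x)))) := by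
  obtain ⟨c₀, hc₀, hle⟩ := exists_pos_mul_le_qf hM
  refine Summable.of_nonneg_of_le (fun _ => (Real.exp_pos _).le) (fun x => ?_)
    (summable_exp_neg_sum_sq (mul_pos hc hc₀) n)
  rw [Real.exp_le_exp, neg_le_neg_iff, mul_assoc]
  have := hle (vR x)
  simp only [vR] at this ⊢
  gcongr

/-- **Summability of the theta series of a positive definite form**. -/
theorem summable_thetaTerm {M : Matrix (Fin n) (Fin n) ℝ} (hM : M.PosDef) {τ : ℂ}
    (hτ : 0 < τ.im) : Summable (thetaTerm M τ) := by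
  refine Summable.of_norm ?_
  have := summable_exp_neg_qf hM (mul_pos Real.pi_pos hτ)
  refine this.congr fun x => ?_
  rw [norm_thetaTerm]

end

end Fermat.Agent.S16.H756
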