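import Mathlib

/-!
# S16 / WP L-th (helper756): theta series of cosets of an integral lattice — definitions

`A` is a symmetric integer matrix, `B` a real symmetric matrix with `A * B = 1`
(so `B = A⁻¹`).  For `c : Fin n → ℤ` we put

  `thetaCoset A B c τ = ∑_{x ∈ ℤⁿ} exp (π i τ · (c + A x)ᵀ B (c + A x))`,

the theta series of the coset `c + A ℤⁿ` for the dual form.  With `h = A⁻¹ c` this is the classical
`Θ_h(τ) = ∑_x exp (π i τ (x + h)ᵀ A (x + h))`.
-/

namespace Fermat.Agent.S16.H756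

open Complex Real Matrix

noncomputable section

variable {n : ℕ}

/-- the quadratic form `v ↦ vᵀ M v` of a real matrix. -/
def qf (M : Matrix (Fin n) (Fin n) ℝ) (v : Fin n → ℝ) : ℝ := v ⬝ᵥ (M *ᵥ v)

/-- the bilinear form `(v, w) ↦ vᵀ M w` of a real matrix. -/
def bf (M : Matrix (Fin n) (Fin n) ℝ) (v w : Fin n → ℝ) : ℝ := v ⬝ᵥ (M *ᵥ w)

/-- the real vector of an integer vector. -/
def vR (x : Fin n → ℤ) : Fin n → ℝ := fun i => (x i : ℝ)

/-- the real matrix of an integer matrix. -/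
def mR (A : Matrix (Fin n) (Fin n) ℤ) : Matrix (Fin n) (Fin n) ℝ := A.map (Int.cast : ℤ → ℝ)

/-- the general term of the theta series of `ℤⁿ` for the form `B`. -/
def thetaTerm (B : Matrix (Fin n) (Fin n) ℝ) (τ : ℂ) (y : Fin n → ℤ) : ℂ :=
  cexp (π * I * τ * (qf B (vR y) : ℝ))

/-- theta series of the coset `c + A ℤⁿ` for the form `B`. -/
def thetaCoset (A : Matrix (Fin n) (Fin n) ℤ) (B : Matrix (Fin n) (Fin n) ℝ)
    (c : Fin n → ℤ) (τ : ℂ) : ℂ :=
  ∑' x : Fin n → ℤ, thetaTerm B τ (c + A *ᵥ x)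

/-- The classical theta series with real characteristic `h` of the form `M`:
`∑_x exp (π i τ (x+h)ᵀ M (x+h))`. -/
def thetaChar (M : Matrix (Fin n) (Fin n) ℝ) (h : Fin n → ℝ) (τ : ℂ) : ℂ :=
  ∑' x : Fin n → ℤ, cexp (π * I * τ * (qf M (vR x + h) : ℝ))

/-- The hypotheses on the pair `(A, B)` used throughout: `A` symmetric, even, integral;
`B` symmetric real with `A B = 1`. -/
structure LatticePair (A : Matrix (Fin n) (Fin n) ℤ) (B : Matrix (Fin n) (Fin n) ℝ) : Prop where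
  symmA : Aᵀ = A
  symmB : Bᵀ = B
  mul_eq_one : mR A * B = 1
  even : ∀ x : Fin n → ℤ, Even (x ⬝ᵥ (A *ᵥ x))

/-- The analytic input (generic Gaussian theta inversion for the positive definite matrix `A`,
with inverse `B`): summability of the `B`-theta series and the inversion formula with constant
`κ τ` (for `A` positive definite, `κ τ = (-iτ)^(-n/2) (det A)^(-1/2)`). -/
structure GaussInv (A : Matrix (Fin n) (Fin n) ℤ) (B : Matrix (Fin n) (Fin n) ℝ)
    (κ : ℂ → ℂ) : Prop where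
  summable : ∀ τ : ℂ, 0 < τ.im → Summable (thetaTerm B τ)
  inv : ∀ τ : ℂ, 0 < τ.im → ∀ h : Fin n → ℝ,
    thetaChar (mR A) h τ =
      κ τ * ∑' y : Fin n → ℤ,
        cexp (π * I * (-1 / τ) * (qf B (vR y) : ℝ) + 2 * π * I * ((vR y ⬝ᵥ h : ℝ) : ℂ))

end

end Fermat.Agent.S16.H756
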