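import Fermat.Agent.S16.H756.ThetaHolo

/-!
# S16 / WP L-th (helper756): the `q`-expansion of the theta series `θ_A = Θ_0`

`θ_A(τ) = ∑_{k ≥ 0} r_A(k) q^k`, `q = exp (2πiτ)`, `r_A(k) = #{x ∈ ℤⁿ : xᵀAx = 2k}`,
with `r_A(0) = 1` and `r_A(k)` even for `k ≥ 1`.
-/

namespace Fermat.Agent.S16.H756

open Complex Real Matrix

noncomputable section

variable {n : ℕ} {A : Matrix (Fin n) (Fin n) ℤ} {B : Matrix (Fin n) (Fin n) ℝ}

/-- the integral quadratic form `xᵀ A x`. -/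
def qfZ (A : Matrix (Fin n) (Fin n) ℤ) (x : Fin n → ℤ) : ℤ := x ⬝ᵥ (A *ᵥ x)

/-- representation numbers `r_A(k) = #{x ∈ ℤⁿ : xᵀAx = 2k}`. -/
def repNum (A : Matrix (Fin n) (Fin n) ℤ) (k : ℕ) : ℕ :=
  Nat.card {x : Fin n → ℤ // qfZ A x = 2 * (k : ℤ)}

lemma qfZ_neg (A : Matrix (Fin n) (Fin n) ℤ) (x : Fin n → ℤ) : qfZ A (-x) = qfZ A x := by
  simp [qfZ, mulVec_neg]

@[simp] lemma qfZ_zero (A : Matrix (Fin n) (Fin n) ℤ) : qfZ A 0 = 0 := by
  simp [qfZ]

namespace LatticePair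

lemma qfZ_cast (hL : LatticePair A B) (x : Fin n → ℤ) :
    ((qfZ A x : ℤ) : ℝ) = qf B (vR (A *ᵥ x)) := by
  rw [vR_mulVec, hL.qf_B_A, qf_mR, qfZ]

lemma mulVec_ne_zero (hL : LatticePair A B) {x : Fin n → ℤ} (hx : x ≠ 0) : A *ᵥ x ≠ 0 := by
  intro h
  apply hx
  have := hL.coset_injective 0 (a₁ := x) (a₂ := 0) (by simp [h])
  exact this

lemma qfZ_pos (hL : LatticePair A B) (hB : B.PosDef) {x : Fin n → ℤ} (hx : x ≠ 0) :
    0 < qfZ A x := by
  have h1 : vR (A *ᵥ x) ≠ 0 := fun h =>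
    hL.mulVec_ne_zero hx (vR_injective (by rw [h, vR_zero]))
  have h2 := qf_pos_of_posDef hB h1
  rw [← hL.qfZ_cast] at h2
  exact_mod_cast h2

lemma qfZ_nonneg (hL : LatticePair A B) (hB : B.PosDef) (x : Fin n → ℤ) : 0 ≤ qfZ A x := by
  rcases eq_or_ne x 0 with rfl | hx
  · simp
  · exact (hL.qfZ_pos hB hx).le

lemma qfZ_eq_zero_iff (hL : LatticePair A B) (hB : B.PosDef) {x : Fin n → ℤ} :
    qfZ A x = 0 ↔ x = 0 := by
  constructor
  · intro h
    by_contra hx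
    exact (hL.qfZ_pos hB hx).ne' h
  · rintro rfl; simp

end LatticePair

/-- the half norm `xᵀAx / 2 ∈ ℕ`. -/
def halfNorm (A : Matrix (Fin n) (Fin n) ℤ) (x : Fin n → ℤ) : ℕ := (qfZ A x / 2).toNat

lemma two_mul_halfNorm (hL : LatticePair A B) (hB : B.PosDef) (x : Fin n → ℤ) :
    2 * (halfNorm A x : ℤ) = qfZ A x := by
  have h1 := hL.qfZ_nonneg hB x
  have h2 : Even (qfZ A x) := hL.even x
  obtain ⟨m, hm⟩ := h2
  unfold halfNorm
  rw [Int.toNat_of_nonneg (by omega)]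
  omega

lemma halfNorm_eq_iff (hL : LatticePair A B) (hB : B.PosDef) (x : Fin n → ℤ) (k : ℕ) :
    halfNorm A x = k ↔ qfZ A x = 2 * (k : ℤ) := by
  have := two_mul_halfNorm hL hB x
  constructor
  · intro h; rw [← this, h]
  · intro h
    have : (halfNorm A x : ℤ) = k := by omega
    exact_mod_cast this

/-- the general term of `θ_A` is `q^{xᵀAx/2}`. -/
lemma thetaTerm_zero_coset (hL : LatticePair A B) (hB : B.PosDef) (τ : ℂ) (x : Fin n → ℤ) :
    thetaTerm B τ (0 + A *ᵥ x) = cexp (2 * π * I * τ) ^ halfNorm A x := by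
  rw [← Complex.exp_nat_mul, thetaTerm, zero_add, ← hL.qfZ_cast, ← two_mul_halfNorm hL hB]
  congr 1
  push_cast
  ring

lemma repNum_eq (hL : LatticePair A B) (hB : B.PosDef) (k : ℕ) :
    repNum A k = Nat.card ↥(halfNorm A ⁻¹' {k}) := by
  unfold repNum
  refine Nat.card_congr (Equiv.subtypeEquivRight fun x => ?_)
  rw [Set.mem_preimage, Set.mem_singleton_iff, halfNorm_eq_iff hL hB]

/-- **The `q`-expansion of `θ_A`**. -/
theorem hasSum_thetaCoset_zero (hL : LatticePair A B) (hB : B.PosDef) {τ : ℂ}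
    (hτ : 0 < τ.im) :
    HasSum (fun k : ℕ => (repNum A k : ℂ) * cexp (2 * π * I * τ) ^ k)
      (thetaCoset A B 0 τ) := by
  have h1 : HasSum (fun x : Fin n → ℤ => cexp (2 * π * I * τ) ^ halfNorm A x)
      (thetaCoset A B 0 τ) := by
    have h0 : HasSum (fun x : Fin n → ℤ => thetaTerm B τ (0 + A *ᵥ x)) (thetaCoset A B 0 τ) :=
      (summable_coset_of_posDef hB hL hτ 0).hasSum
    have heq : (fun x : Fin n → ℤ => thetaTerm B τ (0 + A *ᵥ x)) =
        fun x => cexp (2 * π * I * τ) ^ halfNorm A x :=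
      funext (thetaTerm_zero_coset hL hB τ)
    rwa [heq] at h0
  have h2 := h1.tsum_fiberwise (halfNorm A)
  have key : (fun k : ℕ => ∑' x : ↥(halfNorm A ⁻¹' {k}),
        cexp (2 * π * I * τ) ^ halfNorm A (x : Fin n → ℤ)) =
      fun k : ℕ => (repNum A k : ℂ) * cexp (2 * π * I * τ) ^ k := by
    funext k
    have h3 : ∀ x : ↥(halfNorm A ⁻¹' {k}),
        cexp (2 * π * I * τ) ^ halfNorm A (x : Fin n → ℤ) = cexp (2 * π * I * τ) ^ k := by
      rintro ⟨x, hx⟩
      rw [Set.mem_preimage, Set.mem_singleton_iff] at hx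
      simp only [hx]
    rw [tsum_congr h3, tsum_const, repNum_eq hL hB, nsmul_eq_mul]
  rwa [key] at h2

/-- `r_A(0) = 1`. -/
theorem repNum_zero (hL : LatticePair A B) (hB : B.PosDef) : repNum A 0 = 1 := by
  unfold repNum
  have : Nonempty {x : Fin n → ℤ // qfZ A x = 2 * ((0 : ℕ) : ℤ)} := ⟨⟨0, by simp⟩⟩
  have : Subsingleton {x : Fin n → ℤ // qfZ A x = 2 * ((0 : ℕ) : ℤ)} := by
    refine ⟨fun a b => Subtype.ext ?_⟩
    have ha : qfZ A a.1 = 0 := by simpa using a.2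
    have hb : qfZ A b.1 = 0 := by simpa using b.2
    rw [(hL.qfZ_eq_zero_iff hB).mp ha, (hL.qfZ_eq_zero_iff hB).mp hb]
  exact Nat.card_unique

/-- `r_A(k)` is even for `k ≥ 1` (pair `x` with `-x`). -/
theorem even_repNum (A : Matrix (Fin n) (Fin n) ℤ) {k : ℕ} (hk : 1 ≤ k) :
    Even (repNum A k) := by
  unfold repNum
  set S := {x : Fin n → ℤ // qfZ A x = 2 * (k : ℤ)} with hS
  rcases finite_or_infinite S with hfin | hinf
  · classical
    have := Fintype.ofFinite S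
    rw [Nat.card_eq_fintype_card]
    let f : Function.End S := fun x => ⟨-x.1, by rw [qfZ_neg]; exact x.2⟩
    have hf : f ^ 2 ^ 1 = 1 := by
      funext x
      apply Subtype.ext
      show - - x.1 = x.1
      simp
    have : Fact (Nat.Prime 2) := ⟨Nat.prime_two⟩
    have h1 := Equiv.Perm.card_fixedPoints_modEq (p := 2) (n := 1) hf
    have h2 : IsEmpty ↥(Function.fixedPoints f) := by
      refine ⟨fun ⟨x, hx⟩ => ?_⟩
      have hx' : f x = x := hx
      have h3 : -x.1 = x.1 := congrArg Subtype.val hx'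
      have h4 : x.1 = 0 := by
        funext i
        have := congrFun h3 i
        simp only [Pi.neg_apply, Pi.zero_apply] at this ⊢
        omega
      have h5 := x.2
      rw [h4, qfZ_zero] at h5
      omega
    rw [Fintype.card_eq_zero_iff.mpr h2] at h1
    exact Nat.even_iff.mpr h1
  · rw [Nat.card_eq_zero_of_infinite]
    exact Even.zero

end

end Fermat.Agent.S16.H756
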