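import Fermat.Agent.S16.Interface
import Fermat.Agent.S16.H756.ThetaQExp
import Fermat.Agent.S24.JFun.QFun

/-!
# S16 / WP TH (helper756): bridge from the frozen interface (`IsGoodLattice`, `thetaFun`,
`thetaChar`) to the coset theta series of `H756`, and the skeleton statement `qCoeff_theta`.
-/

set_option autoImplicit false

namespace Fermat.Agent.S16.H756

open Complex Real Matrix UpperHalfPlane ModularFormClass
open scoped Manifold

noncomputable section

variable {p : ℕ} {A B : Matrix (Fin 4) (Fin 4) ℤ}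

/-- the real inverse `B / p` of `A` (for a good lattice `A B = p`). -/
def invR (p : ℕ) (B : Matrix (Fin 4) (Fin 4) ℤ) : Matrix (Fin 4) (Fin 4) ℝ :=
  (p : ℝ)⁻¹ • mR B

lemma mR_mul (A B : Matrix (Fin 4) (Fin 4) ℤ) : mR (A * B) = mR A * mR B := by
  ext i j
  simp [mR, Matrix.mul_apply]

lemma mR_mul_mR_of_good (hA : IsGoodLattice p A B) :
    mR A * mR B = (p : ℝ) • (1 : Matrix (Fin 4) (Fin 4) ℝ) := by
  rw [← mR_mul, hA.mul_eq]
  ext i j
  by_cases h : i = j
  · subst h
    simp only [mR, Matrix.map_apply, Matrix.smul_apply, Matrix.one_apply_eq, smul_eq_mul,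
      mul_one]
    push_cast
    rfl
  · simp only [mR, Matrix.map_apply, Matrix.smul_apply, Matrix.one_apply_ne h, smul_eq_mul,
      mul_zero, Int.cast_zero]

lemma mul_invR_of_good [hp : Fact p.Prime] (hA : IsGoodLattice p A B) :
    mR A * invR p B = 1 := by
  have hp0 : (p : ℝ) ≠ 0 := by exact_mod_cast hp.out.ne_zero
  rw [invR, Matrix.mul_smul, mR_mul_mR_of_good hA, smul_smul, inv_mul_cancel₀ hp0, one_smul]

lemma invR_eq_inv [Fact p.Prime] (hA : IsGoodLattice p A B) : invR p B = (mR A)⁻¹ :=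
  (Matrix.inv_eq_right_inv (mul_invR_of_good hA)).symm

lemma posDef_invR [Fact p.Prime] (hA : IsGoodLattice p A B) : (invR p B).PosDef := by
  rw [invR_eq_inv hA]
  exact hA.posDef.inv

/-- a symmetric integral quaternary form with even diagonal is even. -/
lemma even_qf_of_good (hA : IsGoodLattice p A B) (x : Fin 4 → ℤ) :
    Even (x ⬝ᵥ (A *ᵥ x)) := by
  obtain ⟨a0, h0⟩ := hA.even 0
  obtain ⟨a1, h1⟩ := hA.even 1
  obtain ⟨a2, h2⟩ := hA.even 2
  obtain ⟨a3, h3⟩ := hA.even 3
  have s10 : A 1 0 = A 0 1 := hA.symm.apply 0 1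
  have s20 : A 2 0 = A 0 2 := hA.symm.apply 0 2
  have s30 : A 3 0 = A 0 3 := hA.symm.apply 0 3
  have s21 : A 2 1 = A 1 2 := hA.symm.apply 1 2
  have s31 : A 3 1 = A 1 3 := hA.symm.apply 1 3
  have s32 : A 3 2 = A 2 3 := hA.symm.apply 2 3
  refine ⟨a0 * x 0 ^ 2 + a1 * x 1 ^ 2 + a2 * x 2 ^ 2 + a3 * x 3 ^ 2 + A 0 1 * x 0 * x 1 +
    A 0 2 * x 0 * x 2 + A 0 3 * x 0 * x 3 + A 1 2 * x 1 * x 2 + A 1 3 * x 1 * x 3 +
    A 2 3 * x 2 * x 3, ?_⟩
  simp only [dotProduct, mulVec, Fin.sum_univ_four, s10, s20, s30, s21, s31, s32, h0, h1, h2, h3]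
  ring

/-- the lattice pair attached to a good lattice. -/
theorem latticePair_of_good [Fact p.Prime] (hA : IsGoodLattice p A B) :
    LatticePair A (invR p B) where
  symmA := hA.symm
  symmB := by
    rw [invR_eq_inv hA, Matrix.transpose_nonsing_inv, mR_transpose, hA.symm.eq]
  mul_eq_one := mul_invR_of_good hA
  even := even_qf_of_good hA

lemma qf_invR (p : ℕ) (B : Matrix (Fin 4) (Fin 4) ℤ) (y : Fin 4 → ℤ) :
    qf (invR p B) (vR y) = ((Fermat.Agent.S16.qf B y : ℤ) : ℝ) / p := by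
  rw [invR, qf, Matrix.smul_mulVec, dotProduct_smul, smul_eq_mul, ← qf, qf_mR,
    Fermat.Agent.S16.qf]
  ring

/-- the interface theta series with characteristic is the coset theta series. -/
theorem ifaceThetaChar_eq_thetaCoset [Fact p.Prime] (hA : IsGoodLattice p A B) (y : Fin 4 → ℤ)
    (z : ℍ) :
    Fermat.Agent.S16.thetaChar p A B y z = thetaCoset A (invR p B) y (z : ℂ) := by
  unfold Fermat.Agent.S16.thetaChar thetaCoset thetaTerm
  refine tsum_congr fun x => ?_
  rw [(latticePair_of_good hA).qf_coset, qf_invR]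
  congr 1
  simp only [Fermat.Agent.S16.qf]
  push_cast
  ring

/-- the interface theta series is the coset theta series of the zero coset. -/
theorem thetaFun_eq_thetaCoset [Fact p.Prime] (hA : IsGoodLattice p A B) (z : ℍ) :
    Fermat.Agent.S16.thetaFun A z = thetaCoset A (invR p B) 0 (z : ℂ) := by
  unfold Fermat.Agent.S16.thetaFun thetaCoset thetaTerm
  refine tsum_congr fun x => ?_
  rw [zero_add, ← (latticePair_of_good hA).qfZ_cast]
  simp only [Fermat.Agent.S16.qf, qfZ]
  push_cast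
  ring_nf

theorem thetaFun_eq_thetaH [Fact p.Prime] (hA : IsGoodLattice p A B) :
    Fermat.Agent.S16.thetaFun A = thetaH A (invR p B) 0 :=
  funext fun z => thetaFun_eq_thetaCoset hA z

theorem thetaChar_eq_thetaH [Fact p.Prime] (hA : IsGoodLattice p A B) (y : Fin 4 → ℤ) :
    Fermat.Agent.S16.thetaChar p A B y = thetaH A (invR p B) y :=
  funext fun z => ifaceThetaChar_eq_thetaCoset hA y z

/-- `θ_A` is holomorphic. -/
theorem mdiff_thetaFun [Fact p.Prime] (hA : IsGoodLattice p A B) :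
    MDiff (Fermat.Agent.S16.thetaFun A) := by
  rw [thetaFun_eq_thetaH hA]
  exact mdifferentiable_thetaH (posDef_invR hA) (latticePair_of_good hA) 0

/-- `Θ_y` is holomorphic. -/
theorem mdiff_thetaChar [Fact p.Prime] (hA : IsGoodLattice p A B) (y : Fin 4 → ℤ) :
    MDiff (Fermat.Agent.S16.thetaChar p A B y) := by
  rw [thetaChar_eq_thetaH hA]
  exact mdifferentiable_thetaH (posDef_invR hA) (latticePair_of_good hA) y

/-- `Θ_y` is bounded at `i∞`. -/
theorem isBoundedAtImInfty_thetaChar [Fact p.Prime] (hA : IsGoodLattice p A B)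
    (y : Fin 4 → ℤ) : IsBoundedAtImInfty (Fermat.Agent.S16.thetaChar p A B y) := by
  rw [thetaChar_eq_thetaH hA]
  exact isBoundedAtImInfty_thetaH (posDef_invR hA) (latticePair_of_good hA) y

/-- `θ_A` is bounded at `i∞`. -/
theorem isBoundedAtImInfty_thetaFun [Fact p.Prime] (hA : IsGoodLattice p A B) :
    IsBoundedAtImInfty (Fermat.Agent.S16.thetaFun A) := by
  rw [thetaFun_eq_thetaH hA]
  exact isBoundedAtImInfty_thetaH (posDef_invR hA) (latticePair_of_good hA) 0

/-- `θ_A (z + 1) = θ_A z`. -/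
theorem thetaFun_vadd [Fact p.Prime] (hA : IsGoodLattice p A B) (z : ℍ) :
    Fermat.Agent.S16.thetaFun A ((1 : ℝ) +ᵥ z) = Fermat.Agent.S16.thetaFun A z := by
  rw [thetaFun_eq_thetaCoset hA, thetaFun_eq_thetaCoset hA]
  have h1 : (((1 : ℝ) +ᵥ z : ℍ) : ℂ) = (z : ℂ) + 1 := by
    rw [UpperHalfPlane.coe_vadd]; push_cast; ring
  rw [h1, thetaCoset_add_one (latticePair_of_good hA)]
  simp

/-- the `q`-expansion of `θ_A`, as a `HasSum` in the parameter `𝕢 1 z`. -/
theorem hasSum_thetaFun [Fact p.Prime] (hA : IsGoodLattice p A B) (z : ℍ) :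
    HasSum (fun m : ℕ => (repNum A m : ℂ) • Function.Periodic.qParam 1 (z : ℂ) ^ m)
      (Fermat.Agent.S16.thetaFun A z) := by
  rw [thetaFun_eq_thetaCoset hA]
  have := hasSum_thetaCoset_zero (latticePair_of_good hA) (posDef_invR hA) z.im_pos
  simpa [Function.Periodic.qParam, smul_eq_mul] using this

/-- the `q`-coefficients of `θ_A` are the representation numbers. -/
theorem qCoeff_thetaFun [Fact p.Prime] (hA : IsGoodLattice p A B) (m : ℕ) :
    qCoeff (Fermat.Agent.S16.thetaFun A) m = (repNum A m : ℂ) := by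
  have hper := Fermat.Agent.S24.JFun.periodic_comp_ofComplex_of_vadd (thetaFun_vadd hA)
  have han : AnalyticAt ℂ (cuspFunction 1 (Fermat.Agent.S16.thetaFun A)) 0 :=
    analyticAt_cuspFunction_zero one_pos hper (mdiff_thetaFun hA) (isBoundedAtImInfty_thetaFun hA)
  exact Fermat.Agent.S24.JFun.qExpansion_coeff_unique_fun han (hasSum_thetaFun hA) m

/-- **WP TH (q-expansion)**, exact skeleton statement `Skel.qCoeff_theta`. -/
theorem qCoeff_theta (p : ℕ) [Fact p.Prime] (A B : Matrix (Fin 4) (Fin 4) ℤ)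
    (hA : IsGoodLattice p A B) :
    qCoeff (thetaFun A) 0 = 1 ∧
      ∀ k : ℕ, 1 ≤ k → ∃ m : ℤ, qCoeff (thetaFun A) k = 2 * (m : ℂ) := by
  refine ⟨?_, fun k hk => ?_⟩
  · rw [qCoeff_thetaFun hA, repNum_zero (latticePair_of_good hA) (posDef_invR hA)]
    simp
  · obtain ⟨m, hm⟩ := even_repNum A hk
    refine ⟨(m : ℤ), ?_⟩
    rw [qCoeff_thetaFun hA, hm]
    push_cast
    ring

end

end Fermat.Agent.S16.H756
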