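import Fermat.Agent.S16.H756.Bridge

/-!
# S16 / WP TH (helper756): the discriminant group `ℤ⁴ / A ℤ⁴` of a good lattice

cardinality `p²`, the `𝔽_p`-valued quadratic form `q` and its polar form `b` (nondegenerate).
-/

set_option autoImplicit false

namespace Fermat.Agent.S16.H756

open Complex Real Matrix

noncomputable section

section card

variable {n : ℕ} {A : Matrix (Fin n) (Fin n) ℤ} {B : Matrix (Fin n) (Fin n) ℝ}

lemma mulVecLin_injective (hL : LatticePair A B) : Function.Injective (Matrix.mulVecLin A) := by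
  intro x y hxy
  have := hL.coset_injective 0 (a₁ := x) (a₂ := y)
  apply this
  simpa using hxy

/-- `#(ℤⁿ / A ℤⁿ) = |det A|`. -/
theorem card_discGroup (hL : LatticePair A B) : Nat.card (DiscGroup A) = A.det.natAbs := by
  let N : Submodule ℤ (Fin n → ℤ) := LinearMap.range (Matrix.mulVecLin A)
  let e : (Fin n → ℤ) ≃ₗ[ℤ] N := LinearEquiv.ofInjective (Matrix.mulVecLin A)
    (mulVecLin_injective hL)
  have h1 := Submodule.natAbs_det_equiv N e
  have h2 : N.subtype ∘ₗ AddMonoidHom.toIntLinearMap ((e : (Fin n → ℤ) ≃ₗ[ℤ] N) :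
      (Fin n → ℤ) →+ N) = Matrix.toLin' A := by
    ext x i
    rfl
  rw [h2, LinearMap.det_toLin'] at h1
  rw [h1]
  rfl

end card

variable {p : ℕ} {A B : Matrix (Fin 4) (Fin 4) ℤ}

theorem card_discGroup_of_good [hp : Fact p.Prime] (hA : IsGoodLattice p A B) :
    Nat.card (DiscGroup A) = p ^ 2 := by
  rw [card_discGroup (latticePair_of_good hA), hA.det_eq]
  rw [Int.natAbs_pow, Int.natAbs_natCast]

lemma finite_discGroup_of_good [hp : Fact p.Prime] (hA : IsGoodLattice p A B) :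
    Finite (DiscGroup A) := by
  apply Nat.finite_of_card_ne_zero
  rw [card_discGroup_of_good hA]
  exact pow_ne_zero _ hp.out.ne_zero

end

end Fermat.Agent.S16.H756

namespace Fermat.Agent.S16.H756

open Complex Real Matrix

noncomputable section

variable {p : ℕ} {A B : Matrix (Fin 4) (Fin 4) ℤ}

/-! ### lattice algebra of a good lattice -/

/-- a symmetric integral quaternary form with even diagonal is even. -/
lemma even_qf_of_symm {M : Matrix (Fin 4) (Fin 4) ℤ} (hs : M.IsSymm) (he : ∀ i, Even (M i i))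
    (x : Fin 4 → ℤ) : Even (x ⬝ᵥ (M *ᵥ x)) := by
  obtain ⟨a0, h0⟩ := he 0
  obtain ⟨a1, h1⟩ := he 1
  obtain ⟨a2, h2⟩ := he 2
  obtain ⟨a3, h3⟩ := he 3
  have s10 : M 1 0 = M 0 1 := hs.apply 0 1
  have s20 : M 2 0 = M 0 2 := hs.apply 0 2
  have s30 : M 3 0 = M 0 3 := hs.apply 0 3
  have s21 : M 2 1 = M 1 2 := hs.apply 1 2
  have s31 : M 3 1 = M 1 3 := hs.apply 1 3
  have s32 : M 3 2 = M 2 3 := hs.apply 2 3
  refine ⟨a0 * x 0 ^ 2 + a1 * x 1 ^ 2 + a2 * x 2 ^ 2 + a3 * x 3 ^ 2 + M 0 1 * x 0 * x 1 +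
    M 0 2 * x 0 * x 2 + M 0 3 * x 0 * x 3 + M 1 2 * x 1 * x 2 + M 1 3 * x 1 * x 3 +
    M 2 3 * x 2 * x 3, ?_⟩
  simp only [dotProduct, mulVec, Fin.sum_univ_four, s10, s20, s30, s21, s31, s32, h0, h1, h2, h3]
  ring

lemma mR_injective : Function.Injective (mR : Matrix (Fin 4) (Fin 4) ℤ → _) := by
  intro M N h
  ext i j
  have := congrFun (congrFun h i) j
  simpa [mR] using this

lemma isSymm_B_of_good [hp : Fact p.Prime] (hA : IsGoodLattice p A B) : B.IsSymm := by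
  have hp0 : (p : ℝ) ≠ 0 := by exact_mod_cast hp.out.ne_zero
  have h1 := (latticePair_of_good hA).symmB
  have h2 : (mR B)ᵀ = mR B := by
    have : (invR p B)ᵀ = (p : ℝ)⁻¹ • (mR B)ᵀ := by rw [invR, Matrix.transpose_smul]
    rw [this, invR] at h1
    have h3 := congrArg (fun M => (p : ℝ) • M) h1
    simpa [smul_smul, hp0] using h3
  rw [mR_transpose] at h2
  exact mR_injective h2

lemma B_mul_A_of_good [hp : Fact p.Prime] (hA : IsGoodLattice p A B) :
    B * A = (p : ℤ) • (1 : Matrix (Fin 4) (Fin 4) ℤ) := by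
  have h := congrArg Matrix.transpose hA.mul_eq
  rw [Matrix.transpose_mul, (isSymm_B_of_good hA).eq, hA.symm.eq, Matrix.transpose_smul,
    Matrix.transpose_one] at h
  exact h

lemma B_mulVec_A_mulVec [Fact p.Prime] (hA : IsGoodLattice p A B) (x : Fin 4 → ℤ) :
    B *ᵥ (A *ᵥ x) = (p : ℤ) • x := by
  rw [mulVec_mulVec, B_mul_A_of_good hA, Matrix.smul_mulVec, one_mulVec]

lemma A_mulVec_B_mulVec (hA : IsGoodLattice p A B) (x : Fin 4 → ℤ) :
    A *ᵥ (B *ᵥ x) = (p : ℤ) • x := by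
  rw [mulVec_mulVec, hA.mul_eq, Matrix.smul_mulVec, one_mulVec]

lemma dot_B_comm [Fact p.Prime] (hA : IsGoodLattice p A B) (y w : Fin 4 → ℤ) :
    y ⬝ᵥ (B *ᵥ w) = w ⬝ᵥ (B *ᵥ y) := by
  rw [dotProduct_mulVec, ← mulVec_transpose, (isSymm_B_of_good hA).eq, dotProduct_comm]

lemma dot_A_comm (hA : IsGoodLattice p A B) (y w : Fin 4 → ℤ) :
    y ⬝ᵥ (A *ᵥ w) = w ⬝ᵥ (A *ᵥ y) := by
  rw [dotProduct_mulVec, ← mulVec_transpose, hA.symm.eq, dotProduct_comm]

/-- the integral bilinear form `yᵀ B w`. -/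
def bfB (B : Matrix (Fin 4) (Fin 4) ℤ) (y w : Fin 4 → ℤ) : ℤ := y ⬝ᵥ (B *ᵥ w)

/-- the integral half norm `yᵀ B y / 2`. -/
def hnB (B : Matrix (Fin 4) (Fin 4) ℤ) (y : Fin 4 → ℤ) : ℤ := (y ⬝ᵥ (B *ᵥ y)) / 2

lemma two_mul_hnB [Fact p.Prime] (hA : IsGoodLattice p A B) (y : Fin 4 → ℤ) :
    2 * hnB B y = y ⬝ᵥ (B *ᵥ y) := by
  obtain ⟨m, hm⟩ := even_qf_of_symm (isSymm_B_of_good hA) hA.even' y
  unfold hnB
  omega

lemma bfB_add_left (B : Matrix (Fin 4) (Fin 4) ℤ) (y y' w : Fin 4 → ℤ) :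
    bfB B (y + y') w = bfB B y w + bfB B y' w := by
  simp [bfB, add_dotProduct]

lemma bfB_add_right (B : Matrix (Fin 4) (Fin 4) ℤ) (y w w' : Fin 4 → ℤ) :
    bfB B y (w + w') = bfB B y w + bfB B y w' := by
  simp [bfB, mulVec_add, dotProduct_add]

lemma bfB_comm [Fact p.Prime] (hA : IsGoodLattice p A B) (y w : Fin 4 → ℤ) :
    bfB B y w = bfB B w y := dot_B_comm hA y w

lemma bfB_mulVec_right [Fact p.Prime] (hA : IsGoodLattice p A B) (y x : Fin 4 → ℤ) :
    bfB B y (A *ᵥ x) = p * (y ⬝ᵥ x) := by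
  rw [bfB, B_mulVec_A_mulVec hA, dotProduct_smul, smul_eq_mul]

lemma bfB_mulVec_left [Fact p.Prime] (hA : IsGoodLattice p A B) (x w : Fin 4 → ℤ) :
    bfB B (A *ᵥ x) w = p * (x ⬝ᵥ w) := by
  rw [bfB_comm hA, bfB_mulVec_right hA, dotProduct_comm]

lemma hnB_add [Fact p.Prime] (hA : IsGoodLattice p A B) (y w : Fin 4 → ℤ) :
    hnB B (y + w) = hnB B y + hnB B w + bfB B y w := by
  have h1 := two_mul_hnB hA (y + w)
  have h2 := two_mul_hnB hA y
  have h3 := two_mul_hnB hA w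
  have h4 : (y + w) ⬝ᵥ (B *ᵥ (y + w)) =
      y ⬝ᵥ (B *ᵥ y) + w ⬝ᵥ (B *ᵥ w) + 2 * bfB B y w := by
    have := bfB_comm hA w y
    simp only [bfB] at this ⊢
    rw [mulVec_add, dotProduct_add, add_dotProduct, add_dotProduct, this]
    ring
  unfold bfB at *
  omega

lemma hnB_mulVec [Fact p.Prime] (hA : IsGoodLattice p A B) (x : Fin 4 → ℤ) :
    hnB B (A *ᵥ x) = p * ((x ⬝ᵥ (A *ᵥ x)) / 2) := by
  have h1 := two_mul_hnB hA (A *ᵥ x)
  obtain ⟨m, hm⟩ := even_qf_of_symm hA.symm hA.even x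
  have h2 : (A *ᵥ x) ⬝ᵥ (B *ᵥ (A *ᵥ x)) = p * (x ⬝ᵥ (A *ᵥ x)) := by
    rw [B_mulVec_A_mulVec hA, dotProduct_smul, smul_eq_mul, dotProduct_comm]
  rw [h2, hm] at h1
  rw [hm]
  have : (m + m) / 2 = m := by omega
  rw [this]
  linarith

lemma hnB_smul [Fact p.Prime] (hA : IsGoodLattice p A B) (n : ℤ) (y : Fin 4 → ℤ) :
    hnB B (n • y) = n ^ 2 * hnB B y := by
  have h1 := two_mul_hnB hA (n • y)
  have h2 := two_mul_hnB hA y
  have h3 : (n • y) ⬝ᵥ (B *ᵥ (n • y)) = n ^ 2 * (y ⬝ᵥ (B *ᵥ y)) := by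
    rw [mulVec_smul, dotProduct_smul, smul_dotProduct, smul_eq_mul, smul_eq_mul]
    ring
  rw [h3, ← h2] at h1
  linarith

/-! ### the quadratic module -/

/-- representative of a class. -/
def rep (d : DiscGroup A) : Fin 4 → ℤ := Quotient.out d

lemma toDisc_rep (d : DiscGroup A) : toDisc A (rep d) = d := Quotient.out_eq' d

lemma exists_eq_rep_add (y : Fin 4 → ℤ) : ∃ x, y = rep (toDisc A y) + A *ᵥ x :=
  toDisc_eq_iff.mp (toDisc_rep (toDisc A y)).symm

lemma toDisc_add (y w : Fin 4 → ℤ) : toDisc A (y + w) = toDisc A y + toDisc A w := rfl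

lemma toDisc_zsmul (n : ℤ) (y : Fin 4 → ℤ) : toDisc A (n • y) = n • toDisc A y := rfl

lemma toDisc_zero : toDisc A 0 = 0 := rfl

lemma toDisc_eq_zero_iff {y : Fin 4 → ℤ} : toDisc A y = 0 ↔ ∃ x, y = A *ᵥ x := by
  rw [← toDisc_zero, toDisc_eq_iff]
  simp

/-- `q` on representatives. -/
def qz (p : ℕ) (B : Matrix (Fin 4) (Fin 4) ℤ) (y : Fin 4 → ℤ) : ZMod p := (hnB B y : ZMod p)

/-- `b` on representatives. -/
def bz (p : ℕ) (B : Matrix (Fin 4) (Fin 4) ℤ) (y w : Fin 4 → ℤ) : ZMod p := (bfB B y w : ZMod p)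

lemma qz_add_mulVec [Fact p.Prime] (hA : IsGoodLattice p A B) (y x : Fin 4 → ℤ) :
    qz p B (y + A *ᵥ x) = qz p B y := by
  unfold qz
  rw [hnB_add hA, hnB_mulVec hA, bfB_mulVec_right hA]
  push_cast
  simp

lemma bz_add_mulVec_left [Fact p.Prime] (hA : IsGoodLattice p A B) (y x w : Fin 4 → ℤ) :
    bz p B (y + A *ᵥ x) w = bz p B y w := by
  unfold bz
  rw [bfB_add_left, bfB_mulVec_left hA]
  push_cast
  simp

lemma bz_add_mulVec_right [Fact p.Prime] (hA : IsGoodLattice p A B) (y w x : Fin 4 → ℤ) :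
    bz p B y (w + A *ᵥ x) = bz p B y w := by
  unfold bz
  rw [bfB_add_right, bfB_mulVec_right hA]
  push_cast
  simp

/-- the quadratic form on the discriminant group. -/
def qD (p : ℕ) (A B : Matrix (Fin 4) (Fin 4) ℤ) (d : DiscGroup A) : ZMod p := qz p B (rep d)

/-- the bilinear form on the discriminant group. -/
def bD (p : ℕ) (A B : Matrix (Fin 4) (Fin 4) ℤ) (d d' : DiscGroup A) : ZMod p :=
  bz p B (rep d) (rep d')

lemma qD_toDisc [Fact p.Prime] (hA : IsGoodLattice p A B) (y : Fin 4 → ℤ) :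
    qD p A B (toDisc A y) = qz p B y := by
  obtain ⟨x, hx⟩ := exists_eq_rep_add (A := A) y
  conv_rhs => rw [hx]
  rw [qz_add_mulVec hA]
  rfl

lemma bD_toDisc [Fact p.Prime] (hA : IsGoodLattice p A B) (y w : Fin 4 → ℤ) :
    bD p A B (toDisc A y) (toDisc A w) = bz p B y w := by
  obtain ⟨x, hx⟩ := exists_eq_rep_add (A := A) y
  obtain ⟨x', hx'⟩ := exists_eq_rep_add (A := A) w
  conv_rhs => rw [hx, hx']
  rw [bz_add_mulVec_left hA, bz_add_mulVec_right hA]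
  rfl

lemma qD_add [Fact p.Prime] (hA : IsGoodLattice p A B) (h k : DiscGroup A) :
    qD p A B (h + k) = qD p A B h + qD p A B k + bD p A B h k := by
  conv_lhs => rw [← toDisc_rep h, ← toDisc_rep k, ← toDisc_add, qD_toDisc hA]
  unfold qD bD qz bz
  rw [hnB_add hA]
  push_cast
  rfl

lemma qD_zsmul [Fact p.Prime] (hA : IsGoodLattice p A B) (n : ℤ) (h : DiscGroup A) :
    qD p A B (n • h) = (n : ZMod p) ^ 2 * qD p A B h := by
  conv_lhs => rw [← toDisc_rep h, ← toDisc_zsmul, qD_toDisc hA]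
  unfold qD qz
  rw [hnB_smul hA]
  push_cast
  rfl

lemma bD_add_left [Fact p.Prime] (hA : IsGoodLattice p A B) (h h' k : DiscGroup A) :
    bD p A B (h + h') k = bD p A B h k + bD p A B h' k := by
  conv_lhs => rw [← toDisc_rep h, ← toDisc_rep h', ← toDisc_add, ← toDisc_rep k, bD_toDisc hA]
  unfold bD bz
  rw [bfB_add_left]
  push_cast
  rfl

/-- nondegeneracy of the bilinear form. -/
lemma bD_nondeg [hp : Fact p.Prime] (hA : IsGoodLattice p A B) (h : DiscGroup A) (hh : h ≠ 0) :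
    ∃ k, bD p A B h k ≠ 0 := by
  by_contra hcon
  simp only [not_exists, not_not] at hcon
  apply hh
  have hp0 : (p : ℤ) ≠ 0 := by exact_mod_cast hp.out.ne_zero
  -- all `bz (rep h) w` vanish
  have h1 : ∀ w : Fin 4 → ℤ, (p : ℤ) ∣ bfB B (rep h) w := by
    intro w
    have := hcon (toDisc A w)
    rw [← toDisc_rep h, bD_toDisc hA] at this
    exact (ZMod.intCast_zmod_eq_zero_iff_dvd _ _).mp this
  -- hence `B (rep h) ∈ p ℤ⁴`
  have h2 : ∀ i, (p : ℤ) ∣ (B *ᵥ rep h) i := by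
    intro i
    have := h1 (Pi.single i 1)
    rwa [bfB_comm hA, bfB, single_dotProduct, one_mul] at this
  choose v hv using h2
  have h3 : B *ᵥ rep h = (p : ℤ) • v := by
    funext i
    rw [hv i]
    simp
  have h4 : (p : ℤ) • rep h = (p : ℤ) • (A *ᵥ v) := by
    rw [← A_mulVec_B_mulVec hA, h3, mulVec_smul]
  have h5 : rep h = A *ᵥ v := by
    funext i
    have := congrFun h4 i
    simp only [Pi.smul_apply, smul_eq_mul] at this
    exact mul_left_cancel₀ hp0 this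
  rw [← toDisc_rep h]
  exact toDisc_eq_zero_iff.mpr ⟨v, h5⟩

end

end Fermat.Agent.S16.H756
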