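import Fermat.Agent.S16.H756.ThetaDefs

/-!
# S16 / WP L-th (helper756): basic properties of coset theta series, and the `T`-transformation
-/

namespace Fermat.Agent.S16.H756

open Complex Real Matrix

noncomputable section

variable {n : ℕ}

section cast

@[simp] lemma vR_zero : vR (0 : Fin n → ℤ) = 0 := by
  ext i; simp [vR]

lemma vR_add (x y : Fin n → ℤ) : vR (x + y) = vR x + vR y := by
  ext i; simp [vR]

lemma vR_neg (x : Fin n → ℤ) : vR (-x) = -vR x := by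
  ext i; simp [vR]

lemma vR_sub (x y : Fin n → ℤ) : vR (x - y) = vR x - vR y := by
  ext i; simp [vR]

lemma vR_injective : Function.Injective (vR : (Fin n → ℤ) → (Fin n → ℝ)) := by
  intro x y h
  ext i
  have := congrFun h i
  simpa [vR] using this

lemma vR_dotProduct (x y : Fin n → ℤ) : vR x ⬝ᵥ vR y = ((x ⬝ᵥ y : ℤ) : ℝ) := by
  simp [vR, dotProduct]

lemma vR_mulVec (A : Matrix (Fin n) (Fin n) ℤ) (x : Fin n → ℤ) :
    vR (A *ᵥ x) = mR A *ᵥ vR x := by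
  ext i
  simp [vR, mR, mulVec, dotProduct]

lemma mR_transpose (A : Matrix (Fin n) (Fin n) ℤ) : (mR A)ᵀ = mR Aᵀ := by
  ext i j; simp [mR]

lemma qf_mR (A : Matrix (Fin n) (Fin n) ℤ) (x : Fin n → ℤ) :
    qf (mR A) (vR x) = ((x ⬝ᵥ (A *ᵥ x) : ℤ) : ℝ) := by
  rw [qf, ← vR_mulVec, vR_dotProduct]

lemma qf_neg (M : Matrix (Fin n) (Fin n) ℝ) (v : Fin n → ℝ) : qf M (-v) = qf M v := by
  simp [qf, mulVec_neg]

@[simp] lemma qf_zero (M : Matrix (Fin n) (Fin n) ℝ) : qf M 0 = 0 := by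
  simp [qf]

lemma qf_add (M : Matrix (Fin n) (Fin n) ℝ) (v w : Fin n → ℝ) :
    qf M (v + w) = qf M v + bf M v w + bf M w v + qf M w := by
  simp only [qf, bf, mulVec_add, dotProduct_add, add_dotProduct]
  ring

lemma bf_comm_of_symm {M : Matrix (Fin n) (Fin n) ℝ} (hM : Mᵀ = M) (v w : Fin n → ℝ) :
    bf M v w = bf M w v := by
  unfold bf
  rw [dotProduct_mulVec, ← mulVec_transpose, hM, dotProduct_comm]

end cast

namespace LatticePair

variable {A : Matrix (Fin n) (Fin n) ℤ} {B : Matrix (Fin n) (Fin n) ℝ}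

lemma symm_mR (h : LatticePair A B) : (mR A)ᵀ = mR A := by
  rw [mR_transpose, h.symmA]

lemma mul_eq_one' (h : LatticePair A B) : B * mR A = 1 :=
  mul_eq_one_comm.mp h.mul_eq_one

lemma B_mulVec_A (h : LatticePair A B) (v : Fin n → ℝ) : B *ᵥ (mR A *ᵥ v) = v := by
  rw [mulVec_mulVec, h.mul_eq_one', one_mulVec]

lemma A_mulVec_B (h : LatticePair A B) (v : Fin n → ℝ) : mR A *ᵥ (B *ᵥ v) = v := by
  rw [mulVec_mulVec, h.mul_eq_one, one_mulVec]

/-- `bf B w (A v) = w · v`. -/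
lemma bf_B_A (h : LatticePair A B) (w v : Fin n → ℝ) : bf B w (mR A *ᵥ v) = w ⬝ᵥ v := by
  rw [bf, h.B_mulVec_A]

/-- `bf B (A v) w = v · w`. -/
lemma bf_A_B (h : LatticePair A B) (v w : Fin n → ℝ) : bf B (mR A *ᵥ v) w = v ⬝ᵥ w := by
  rw [bf_comm_of_symm h.symmB, h.bf_B_A, dotProduct_comm]

/-- `qf B (A v) = qf A v`. -/
lemma qf_B_A (h : LatticePair A B) (v : Fin n → ℝ) : qf B (mR A *ᵥ v) = qf (mR A) v := by
  rw [qf, h.B_mulVec_A, qf, dotProduct_comm, dotProduct_mulVec, ← mulVec_transpose, h.symm_mR,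
    dotProduct_comm]

/-- The key expansion: `(c + A v)ᵀ B (c + A v) = cᵀ B c + 2 v·c + vᵀ A v`. -/
lemma qf_coset_real (h : LatticePair A B) (c v : Fin n → ℝ) :
    qf B (c + mR A *ᵥ v) = qf B c + 2 * (v ⬝ᵥ c) + qf (mR A) v := by
  rw [qf_add, h.bf_B_A, h.bf_A_B, h.qf_B_A, dotProduct_comm c v]
  ring

lemma qf_coset (h : LatticePair A B) (c x : Fin n → ℤ) :
    qf B (vR (c + A *ᵥ x)) =
      qf B (vR c) + 2 * ((x ⬝ᵥ c : ℤ) : ℝ) + ((x ⬝ᵥ (A *ᵥ x) : ℤ) : ℝ) := by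
  rw [vR_add, vR_mulVec, h.qf_coset_real, vR_dotProduct, qf_mR]

/-- `x ↦ c + A x` is injective. -/
lemma coset_injective (h : LatticePair A B) (c : Fin n → ℤ) :
    Function.Injective (fun x : Fin n → ℤ => c + A *ᵥ x) := by
  intro x y hxy
  have h1 : A *ᵥ x = A *ᵥ y := add_left_cancel hxy
  have h2 : mR A *ᵥ vR x = mR A *ᵥ vR y := by rw [← vR_mulVec, ← vR_mulVec, h1]
  have h3 := congrArg (fun v => B *ᵥ v) h2
  simp only [h.B_mulVec_A] at h3
  exact vR_injective h3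

end LatticePair

section norm

lemma norm_thetaTerm (B : Matrix (Fin n) (Fin n) ℝ) (τ : ℂ) (y : Fin n → ℤ) :
    ‖thetaTerm B τ y‖ = rexp (-(π * τ.im * qf B (vR y))) := by
  rw [thetaTerm, Complex.norm_exp]
  congr 1
  have : (π * I * τ * (qf B (vR y) : ℝ) : ℂ) = ((π * qf B (vR y) : ℝ) : ℂ) * (I * τ) := by
    push_cast; ring
  rw [this, Complex.re_ofReal_mul]
  simp
  ring

lemma thetaTerm_neg (B : Matrix (Fin n) (Fin n) ℝ) (τ : ℂ) (y : Fin n → ℤ) :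
    thetaTerm B τ (-y) = thetaTerm B τ y := by
  rw [thetaTerm, thetaTerm, vR_neg, qf_neg]

lemma thetaTerm_ne_zero (B : Matrix (Fin n) (Fin n) ℝ) (τ : ℂ) (y : Fin n → ℤ) :
    thetaTerm B τ y ≠ 0 := Complex.exp_ne_zero _

end norm

end

end Fermat.Agent.S16.H756
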