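import Fermat.Agent.S16.H756.ThetaS
import Fermat.Agent.S16.H756.ThetaSum

/-!
# S16 / WP L-th (helper756): holomorphy and boundedness at `i∞` of coset theta series
-/

namespace Fermat.Agent.S16.H756

open Complex Real Matrix UpperHalfPlane

noncomputable section

variable {n : ℕ} {A : Matrix (Fin n) (Fin n) ℤ} {B : Matrix (Fin n) (Fin n) ℝ}

lemma differentiable_thetaTerm (B : Matrix (Fin n) (Fin n) ℝ) (y : Fin n → ℤ) :
    Differentiable ℂ (fun τ : ℂ => thetaTerm B τ y) := by
  unfold thetaTerm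
  fun_prop

/-- monotonicity of the norm of the general term in `im τ`. -/
lemma norm_thetaTerm_le (hB : B.PosDef) {ε : ℝ} {τ : ℂ} (h : ε ≤ τ.im) (y : Fin n → ℤ) :
    ‖thetaTerm B τ y‖ ≤ rexp (-(π * ε * qf B (vR y))) := by
  rw [norm_thetaTerm, Real.exp_le_exp, neg_le_neg_iff]
  have := qf_nonneg_of_posDef hB (vR y)
  have hπ := Real.pi_pos
  gcongr

lemma summable_coset_of_posDef (hB : B.PosDef) (hL : LatticePair A B) {τ : ℂ} (hτ : 0 < τ.im)
    (c : Fin n → ℤ) : Summable (fun x : Fin n → ℤ => thetaTerm B τ (c + A *ᵥ x)) :=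
  (summable_thetaTerm hB hτ).comp_injective (hL.coset_injective c)

lemma summable_coset_bound (hB : B.PosDef) (hL : LatticePair A B) {ε : ℝ} (hε : 0 < ε)
    (c : Fin n → ℤ) :
    Summable (fun x : Fin n → ℤ => rexp (-(π * ε * qf B (vR (c + A *ᵥ x))))) := by
  have h := (summable_exp_neg_qf hB (mul_pos Real.pi_pos hε)).comp_injective
    (hL.coset_injective c)
  exact h

/-- **Holomorphy** of the coset theta series on the upper half plane. -/
theorem differentiableOn_thetaCoset (hB : B.PosDef) (hL : LatticePair A B) (c : Fin n → ℤ) :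
    DifferentiableOn ℂ (thetaCoset A B c) {τ : ℂ | 0 < τ.im} := by
  intro τ₀ hτ₀
  have hτ₀' : 0 < τ₀.im := hτ₀
  set ε := τ₀.im / 2 with hε
  have hε0 : 0 < ε := by positivity
  have hU : IsOpen {τ : ℂ | ε < τ.im} := isOpen_lt continuous_const Complex.continuous_im
  have hmem : τ₀ ∈ {τ : ℂ | ε < τ.im} := by
    show ε < τ₀.im
    rw [hε]; linarith
  have hd : DifferentiableOn ℂ (fun τ => ∑' x : Fin n → ℤ, thetaTerm B τ (c + A *ᵥ x))
      {τ : ℂ | ε < τ.im} :=
    differentiableOn_tsum_of_summable_norm (summable_coset_bound hB hL hε0 c)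
      (fun x => (differentiable_thetaTerm B _).differentiableOn) hU
      (fun x τ hτ => norm_thetaTerm_le hB (le_of_lt hτ) _)
  exact (hd.differentiableAt (hU.mem_nhds hmem)).differentiableWithinAt

/-- the coset theta series as a function on `ℍ`. -/
def thetaH (A : Matrix (Fin n) (Fin n) ℤ) (B : Matrix (Fin n) (Fin n) ℝ) (c : Fin n → ℤ) :
    ℍ → ℂ := fun z => thetaCoset A B c (z : ℂ)

open scoped Manifold in
/-- **Holomorphy** of the coset theta series, as a function on `ℍ`. -/
theorem mdifferentiable_thetaH (hB : B.PosDef) (hL : LatticePair A B) (c : Fin n → ℤ) :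
    MDiff (thetaH A B c) := by
  rw [UpperHalfPlane.mdifferentiable_iff]
  refine (differentiableOn_thetaCoset hB hL c).congr fun z hz => ?_
  simp [thetaH, Function.comp_apply, ofComplex_apply_of_im_pos hz]

/-- uniform bound of the coset theta series on `{im τ ≥ ε}`. -/
theorem norm_thetaCoset_le (hB : B.PosDef) (hL : LatticePair A B) (c : Fin n → ℤ) {ε : ℝ}
    (hε : 0 < ε) {τ : ℂ} (hτ : ε ≤ τ.im) :
    ‖thetaCoset A B c τ‖ ≤ ∑' x : Fin n → ℤ, rexp (-(π * ε * qf B (vR (c + A *ᵥ x)))) := by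
  have hs := summable_coset_of_posDef hB hL (lt_of_lt_of_le hε hτ) c
  refine (norm_tsum_le_tsum_norm hs.norm).trans ?_
  exact hs.norm.tsum_le_tsum (fun x => norm_thetaTerm_le hB hτ _) (summable_coset_bound hB hL hε c)

/-- **Boundedness at `i∞`** of the coset theta series. -/
theorem isBoundedAtImInfty_thetaH (hB : B.PosDef) (hL : LatticePair A B) (c : Fin n → ℤ) :
    IsBoundedAtImInfty (thetaH A B c) := by
  rw [UpperHalfPlane.isBoundedAtImInfty_iff]
  exact ⟨_, 1, fun z hz => norm_thetaCoset_le hB hL c one_pos hz⟩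

end

end Fermat.Agent.S16.H756
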