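import Fermat.Agent.S16.H756.ThetaT

/-!
# S16 / WP L-th (helper756): the `S`-transformation of coset theta series

From the generic Gaussian inversion formula (`GaussInv`, provided by the generic WP) we derive,
by regrouping the dual sum over the cosets of `A ℤⁿ` in `ℤⁿ`,

  `Θ_{c'}(-1/τ) = κ(-1/τ) ∑_{d ∈ ℤⁿ/Aℤⁿ} e(r(d)ᵀ B c') Θ_{r(d)}(τ)`

for any system of representatives `r`.
-/

namespace Fermat.Agent.S16.H756

open Complex Real Matrix

noncomputable section

variable {n : ℕ} {A : Matrix (Fin n) (Fin n) ℤ} {B : Matrix (Fin n) (Fin n) ℝ} {κ : ℂ → ℂ}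

/-- the sublattice `A ℤⁿ` of `ℤⁿ`. -/
def rangeA (A : Matrix (Fin n) (Fin n) ℤ) : AddSubgroup (Fin n → ℤ) :=
  (LinearMap.range (Matrix.mulVecLin A)).toAddSubgroup

lemma mem_rangeA {y : Fin n → ℤ} : y ∈ rangeA A ↔ ∃ x, A *ᵥ x = y := by
  simp [rangeA]

/-- the discriminant group `ℤⁿ / A ℤⁿ`. -/
abbrev DiscGroup (A : Matrix (Fin n) (Fin n) ℤ) : Type := (Fin n → ℤ) ⧸ rangeA A

/-- the projection `ℤⁿ → ℤⁿ / A ℤⁿ`. -/
def toDisc (A : Matrix (Fin n) (Fin n) ℤ) (y : Fin n → ℤ) : DiscGroup A :=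
  QuotientAddGroup.mk y

lemma toDisc_eq_iff {y r : Fin n → ℤ} : toDisc A y = toDisc A r ↔ ∃ x, y = r + A *ᵥ x := by
  unfold toDisc
  rw [QuotientAddGroup.eq, mem_rangeA]
  constructor
  · rintro ⟨x, hx⟩
    refine ⟨-x, ?_⟩
    rw [mulVec_neg, hx]; abel
  · rintro ⟨x, rfl⟩
    refine ⟨-x, ?_⟩
    rw [mulVec_neg]; abel

lemma toDisc_add_mulVec (c z : Fin n → ℤ) : toDisc A (c + A *ᵥ z) = toDisc A c :=
  toDisc_eq_iff.mpr ⟨z, rfl⟩

lemma im_neg_one_div_pos {τ : ℂ} (hτ : 0 < τ.im) : 0 < (-1 / τ).im := by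
  have h0 : τ ≠ 0 := by
    rintro rfl; simp at hτ
  have : (-1 / τ).im = τ.im / Complex.normSq τ := by
    rw [neg_div, one_div, Complex.neg_im, Complex.inv_im]; ring
  rw [this]
  exact div_pos hτ (Complex.normSq_pos.mpr h0)

lemma neg_one_div_neg_one_div {τ : ℂ} (hτ : 0 < τ.im) : -1 / (-1 / τ) = τ := by
  have h0 : τ ≠ 0 := by
    rintro rfl; simp at hτ
  field_simp

/-- the bijection `x ↦ r + A x` from `ℤⁿ` onto the fibre of `toDisc` over the class of `r`. -/
def fibreEquiv (hL : LatticePair A B) (r : Fin n → ℤ) :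
    (Fin n → ℤ) ≃ ↥(toDisc A ⁻¹' {toDisc A r}) :=
  Equiv.ofBijective (fun x => ⟨r + A *ᵥ x, by simp [toDisc_add_mulVec]⟩) <| by
    constructor
    · intro x y hxy
      exact hL.coset_injective r (congrArg Subtype.val hxy)
    · rintro ⟨y, hy⟩
      obtain ⟨x, hx⟩ := toDisc_eq_iff.mp (by simpa using hy)
      exact ⟨x, Subtype.ext hx.symm⟩

@[simp] lemma fibreEquiv_apply (hL : LatticePair A B) (r x : Fin n → ℤ) :
    ((fibreEquiv hL r x : ↥(toDisc A ⁻¹' {toDisc A r})) : Fin n → ℤ) = r + A *ᵥ x := rfl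

/-- sum over a fibre of `toDisc` = sum over `x ↦ r + A x`. -/
lemma tsum_fibre (hL : LatticePair A B) (F : (Fin n → ℤ) → ℂ) (r : Fin n → ℤ) :
    ∑' y : ↥(toDisc A ⁻¹' {toDisc A r}), F y = ∑' x : Fin n → ℤ, F (r + A *ᵥ x) := by
  rw [← (fibreEquiv hL r).tsum_eq]
  rfl

/-- sum over the fibre of `toDisc` over `d`, for any representative `r` of `d`. -/
lemma tsum_fibre_of_eq (hL : LatticePair A B) (F : (Fin n → ℤ) → ℂ) {r : Fin n → ℤ}
    {d : DiscGroup A} (hr : toDisc A r = d) :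
    ∑' y : ↥(toDisc A ⁻¹' {d}), F y = ∑' x : Fin n → ℤ, F (r + A *ᵥ x) := by
  subst hr
  exact tsum_fibre hL F r

namespace GaussInv

/-- summability of the coset family. -/
lemma summable_coset (hG : GaussInv A B κ) (hL : LatticePair A B) {τ : ℂ} (hτ : 0 < τ.im)
    (c : Fin n → ℤ) : Summable (fun x : Fin n → ℤ => thetaTerm B τ (c + A *ᵥ x)) :=
  (hG.summable τ hτ).comp_injective (hL.coset_injective c)

lemma hasSum_thetaCoset (hG : GaussInv A B κ) (hL : LatticePair A B) {τ : ℂ} (hτ : 0 < τ.im)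
    (c : Fin n → ℤ) :
    HasSum (fun x : Fin n → ℤ => thetaTerm B τ (c + A *ᵥ x)) (thetaCoset A B c τ) :=
  (hG.summable_coset hL hτ c).hasSum

end GaussInv

/-- the classical theta series with characteristic `A⁻¹ c` is the coset theta series. -/
lemma thetaChar_eq_thetaCoset (hL : LatticePair A B) (c : Fin n → ℤ) (τ : ℂ) :
    thetaChar (mR A) (B *ᵥ vR c) τ = thetaCoset A B c τ := by
  unfold thetaChar thetaCoset thetaTerm
  refine tsum_congr fun x => ?_
  rw [← hL.qf_B_A, mulVec_add, hL.A_mulVec_B, vR_add, vR_mulVec, add_comm]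

/-- the dual family, as a product. -/
lemma dual_term_eq (B : Matrix (Fin n) (Fin n) ℝ) (c' y : Fin n → ℤ) (τ : ℂ) :
    cexp (π * I * (-1 / τ) * (qf B (vR y) : ℝ) +
        2 * π * I * ((vR y ⬝ᵥ (B *ᵥ vR c') : ℝ) : ℂ)) =
      thetaTerm B (-1 / τ) y * pairC B y c' := by
  rw [thetaTerm, pairC, bf, ← Complex.exp_add]

lemma summable_dual (hG : GaussInv A B κ) {τ : ℂ} (hτ : 0 < τ.im) (c' : Fin n → ℤ) :
    Summable (fun y : Fin n → ℤ => thetaTerm B (-1 / τ) y * pairC B y c') := by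
  refine Summable.of_norm ?_
  have := (hG.summable (-1 / τ) (im_neg_one_div_pos hτ)).norm
  refine this.congr fun y => ?_
  rw [norm_mul, norm_pairC, mul_one]

/-- **Theta inversion for cosets**, first form:
`Θ_{c'}(τ) = κ(τ) ∑_d e(r(d)ᵀ B c') Θ_{r(d)}(-1/τ)`, as a `HasSum` over the discriminant group,
for any system of representatives `r`. -/
theorem hasSum_thetaCoset_inv (hG : GaussInv A B κ) (hL : LatticePair A B)
    (r : DiscGroup A → (Fin n → ℤ)) (hr : ∀ d, toDisc A (r d) = d)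
    {τ : ℂ} (hτ : 0 < τ.im) (c' : Fin n → ℤ) :
    HasSum (fun d : DiscGroup A => κ τ * (pairC B (r d) c' * thetaCoset A B (r d) (-1 / τ)))
      (thetaCoset A B c' τ) := by
  have h1 : thetaCoset A B c' τ =
      κ τ * ∑' y : Fin n → ℤ, thetaTerm B (-1 / τ) y * pairC B y c' := by
    rw [← thetaChar_eq_thetaCoset hL, hG.inv τ hτ]
    congr 1
    exact tsum_congr fun y => dual_term_eq B c' y τ
  rw [h1]
  refine HasSum.mul_left _ ?_
  have h2 := (summable_dual hG hτ c').hasSum.tsum_fiberwise (toDisc A)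
  have key : (fun d : DiscGroup A => ∑' y : ↥(toDisc A ⁻¹' {d}),
        thetaTerm B (-1 / τ) y * pairC B y c') =
      fun d => pairC B (r d) c' * thetaCoset A B (r d) (-1 / τ) := by
    funext d
    have h3 := tsum_fibre_of_eq hL (fun y => thetaTerm B (-1 / τ) y * pairC B y c') (hr d)
    rw [h3, thetaCoset, ← tsum_mul_left]
    refine tsum_congr fun x => ?_
    rw [pairC_add_mulVec_left hL, mul_comm]
  rw [key] at h2
  exact h2

/-- **Theta inversion for cosets (`S`-transformation)**: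
`Θ_{c'}(-1/τ) = κ(-1/τ) ∑_d e(r(d)ᵀ B c') Θ_{r(d)}(τ)`, as a `HasSum` over the discriminant group,
for any system of representatives `r`. -/
theorem hasSum_thetaCoset_S (hG : GaussInv A B κ) (hL : LatticePair A B)
    (r : DiscGroup A → (Fin n → ℤ)) (hr : ∀ d, toDisc A (r d) = d)
    {τ : ℂ} (hτ : 0 < τ.im) (c' : Fin n → ℤ) :
    HasSum (fun d : DiscGroup A => κ (-1 / τ) * (pairC B (r d) c' * thetaCoset A B (r d) τ))
      (thetaCoset A B c' (-1 / τ)) := by
  have := hasSum_thetaCoset_inv hG hL r hr (im_neg_one_div_pos hτ) c'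
  rwa [neg_one_div_neg_one_div hτ] at this

/-- `S`-transformation as a finite sum, when the discriminant group is finite. -/
theorem thetaCoset_S [Fintype (DiscGroup A)] (hG : GaussInv A B κ) (hL : LatticePair A B)
    (r : DiscGroup A → (Fin n → ℤ)) (hr : ∀ d, toDisc A (r d) = d)
    {τ : ℂ} (hτ : 0 < τ.im) (c' : Fin n → ℤ) :
    thetaCoset A B c' (-1 / τ) =
      κ (-1 / τ) * ∑ d : DiscGroup A, pairC B (r d) c' * thetaCoset A B (r d) τ := by
  have := (hasSum_thetaCoset_S hG hL r hr hτ c').tsum_eq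
  rw [tsum_fintype] at this
  rw [← this, Finset.mul_sum]

end

end Fermat.Agent.S16.H756
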