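import Fermat.Agent.S16.H756.ThetaBasic

/-!
# S16 / WP L-th (helper756): translation invariance, evenness and the `T`-transformation
of coset theta series (no analytic input needed).
-/

namespace Fermat.Agent.S16.H756

open Complex Real Matrix

noncomputable section

variable {n : ℕ} {A : Matrix (Fin n) (Fin n) ℤ} {B : Matrix (Fin n) (Fin n) ℝ}

/-- `exp (π i m) = 1` for an even integer `m`. -/
lemma cexp_pi_I_even {m : ℤ} (hm : Even m) : cexp (π * I * (m : ℂ)) = 1 := by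
  obtain ⟨k, rfl⟩ := hm
  have : (π * I * ((k + k : ℤ) : ℂ) : ℂ) = (k : ℂ) * (2 * π * I) := by push_cast; ring
  rw [this, Complex.exp_int_mul_two_pi_mul_I]

/-- `exp (2 π i m) = 1` for an integer `m`. -/
lemma cexp_two_pi_I_int (m : ℤ) : cexp (2 * π * I * (m : ℂ)) = 1 := by
  have : (2 * π * I * (m : ℂ) : ℂ) = (m : ℂ) * (2 * π * I) := by ring
  rw [this, Complex.exp_int_mul_two_pi_mul_I]

/-- The theta series of a coset only depends on the coset. -/
lemma thetaCoset_add_mulVec (A : Matrix (Fin n) (Fin n) ℤ) (B : Matrix (Fin n) (Fin n) ℝ)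
    (c z : Fin n → ℤ) (τ : ℂ) :
    thetaCoset A B (c + A *ᵥ z) τ = thetaCoset A B c τ := by
  unfold thetaCoset
  rw [← (Equiv.addLeft z).tsum_eq (fun x => thetaTerm B τ (c + A *ᵥ x))]
  refine tsum_congr fun x => ?_
  simp only [Equiv.coe_addLeft, mulVec_add, add_assoc]

/-- Evenness: `Θ_{-c} = Θ_c`. -/
lemma thetaCoset_neg (A : Matrix (Fin n) (Fin n) ℤ) (B : Matrix (Fin n) (Fin n) ℝ)
    (c : Fin n → ℤ) (τ : ℂ) :
    thetaCoset A B (-c) τ = thetaCoset A B c τ := by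
  unfold thetaCoset
  rw [← (Equiv.neg (Fin n → ℤ)).tsum_eq (fun x => thetaTerm B τ (-c + A *ᵥ x))]
  refine tsum_congr fun x => ?_
  simp only [Equiv.neg_apply, mulVec_neg]
  rw [← neg_add, thetaTerm_neg]

/-- termwise form of the `T`-transformation. -/
lemma thetaTerm_add_one (hL : LatticePair A B) (c x : Fin n → ℤ) (τ : ℂ) :
    thetaTerm B (τ + 1) (c + A *ᵥ x) =
      cexp (π * I * (qf B (vR c) : ℝ)) * thetaTerm B τ (c + A *ᵥ x) := by
  unfold thetaTerm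
  rw [← Complex.exp_add]
  have h1 : (π * I * (τ + 1) * ((qf B (vR (c + A *ᵥ x)) : ℝ) : ℂ) : ℂ) =
      (π * I * ((qf B (vR c) : ℝ) : ℂ) + π * I * τ * ((qf B (vR (c + A *ᵥ x)) : ℝ) : ℂ)) +
        (2 * π * I * ((x ⬝ᵥ c : ℤ) : ℂ) + π * I * ((x ⬝ᵥ (A *ᵥ x) : ℤ) : ℂ)) := by
    have := hL.qf_coset c x
    have h2 : ((qf B (vR (c + A *ᵥ x)) : ℝ) : ℂ) =
        ((qf B (vR c) : ℝ) : ℂ) + 2 * ((x ⬝ᵥ c : ℤ) : ℂ) + ((x ⬝ᵥ (A *ᵥ x) : ℤ) : ℂ) := by
      rw [this]; push_cast; ring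
    linear_combination (π * I) * h2
  rw [h1, Complex.exp_add _ (2 * π * I * _ + _), Complex.exp_add (2 * π * I * _),
    cexp_two_pi_I_int, cexp_pi_I_even (hL.even x)]
  simp

/-- **The `T`-transformation**: `Θ_c(τ + 1) = exp (π i cᵀ B c) Θ_c(τ)`. -/
theorem thetaCoset_add_one (hL : LatticePair A B) (c : Fin n → ℤ) (τ : ℂ) :
    thetaCoset A B c (τ + 1) = cexp (π * I * (qf B (vR c) : ℝ)) * thetaCoset A B c τ := by
  unfold thetaCoset
  rw [← tsum_mul_left]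
  exact tsum_congr fun x => thetaTerm_add_one hL c x τ

/-- the phase `exp (π i cᵀ B c)` only depends on the coset of `c`. -/
lemma cexp_qf_coset (hL : LatticePair A B) (c z : Fin n → ℤ) :
    cexp (π * I * (qf B (vR (c + A *ᵥ z)) : ℝ)) = cexp (π * I * (qf B (vR c) : ℝ)) := by
  have h2 : ((qf B (vR (c + A *ᵥ z)) : ℝ) : ℂ) =
      ((qf B (vR c) : ℝ) : ℂ) + 2 * ((z ⬝ᵥ c : ℤ) : ℂ) + ((z ⬝ᵥ (A *ᵥ z) : ℤ) : ℂ) := by
    rw [hL.qf_coset c z]; push_cast; ring
  have h1 : (π * I * ((qf B (vR (c + A *ᵥ z)) : ℝ) : ℂ) : ℂ) =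
      π * I * ((qf B (vR c) : ℝ) : ℂ) +
        (2 * π * I * ((z ⬝ᵥ c : ℤ) : ℂ) + π * I * ((z ⬝ᵥ (A *ᵥ z) : ℤ) : ℂ)) := by
    linear_combination (π * I) * h2
  rw [h1, Complex.exp_add, Complex.exp_add (2 * π * I * _), cexp_two_pi_I_int,
    cexp_pi_I_even (hL.even z)]
  simp

/-- The pairing character `exp (2 π i cᵀ B c')`. -/
def pairC (B : Matrix (Fin n) (Fin n) ℝ) (c c' : Fin n → ℤ) : ℂ :=
  cexp (2 * π * I * (bf B (vR c) (vR c') : ℝ))

lemma pairC_comm (hL : LatticePair A B) (c c' : Fin n → ℤ) : pairC B c c' = pairC B c' c := by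
  unfold pairC; rw [bf_comm_of_symm hL.symmB]

lemma norm_pairC (B : Matrix (Fin n) (Fin n) ℝ) (c c' : Fin n → ℤ) : ‖pairC B c c'‖ = 1 := by
  unfold pairC
  have : (2 * π * I * ((bf B (vR c) (vR c') : ℝ) : ℂ) : ℂ) =
      ((2 * π * bf B (vR c) (vR c') : ℝ) : ℂ) * I := by push_cast; ring
  rw [this, Complex.norm_exp_ofReal_mul_I]

lemma bf_add_left (M : Matrix (Fin n) (Fin n) ℝ) (u v w : Fin n → ℝ) :
    bf M (u + v) w = bf M u w + bf M v w := by
  simp [bf, add_dotProduct]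

lemma bf_add_right (M : Matrix (Fin n) (Fin n) ℝ) (u v w : Fin n → ℝ) :
    bf M u (v + w) = bf M u v + bf M u w := by
  simp [bf, mulVec_add, dotProduct_add]

/-- the pairing only depends on the coset of the first argument. -/
lemma pairC_add_mulVec_left (hL : LatticePair A B) (c z c' : Fin n → ℤ) :
    pairC B (c + A *ᵥ z) c' = pairC B c c' := by
  unfold pairC
  rw [vR_add, vR_mulVec, bf_add_left, hL.bf_A_B, vR_dotProduct]
  have : (2 * π * I * ((bf B (vR c) (vR c') + ((z ⬝ᵥ c' : ℤ) : ℝ) : ℝ) : ℂ) : ℂ) =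
      2 * π * I * ((bf B (vR c) (vR c') : ℝ) : ℂ) + 2 * π * I * ((z ⬝ᵥ c' : ℤ) : ℂ) := by
    push_cast; ring
  rw [this, Complex.exp_add, cexp_two_pi_I_int, mul_one]

/-- the pairing only depends on the coset of the second argument. -/
lemma pairC_add_mulVec_right (hL : LatticePair A B) (c c' z : Fin n → ℤ) :
    pairC B c (c' + A *ᵥ z) = pairC B c c' := by
  rw [pairC_comm hL, pairC_add_mulVec_left hL, pairC_comm hL]

lemma pairC_add_left (B : Matrix (Fin n) (Fin n) ℝ) (c₁ c₂ c' : Fin n → ℤ) :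
    pairC B (c₁ + c₂) c' = pairC B c₁ c' * pairC B c₂ c' := by
  unfold pairC
  rw [vR_add, bf_add_left, ← Complex.exp_add]
  congr 1; push_cast; ring

lemma pairC_add_right (B : Matrix (Fin n) (Fin n) ℝ) (c c₁ c₂ : Fin n → ℤ) :
    pairC B c (c₁ + c₂) = pairC B c c₁ * pairC B c c₂ := by
  unfold pairC
  rw [vR_add, bf_add_right, ← Complex.exp_add]
  congr 1; push_cast; ring

@[simp] lemma pairC_zero_left (B : Matrix (Fin n) (Fin n) ℝ) (c' : Fin n → ℤ) :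
    pairC B 0 c' = 1 := by
  simp [pairC, bf]

@[simp] lemma pairC_zero_right (B : Matrix (Fin n) (Fin n) ℝ) (c : Fin n → ℤ) :
    pairC B c 0 = 1 := by
  simp [pairC, bf]

end

end Fermat.Agent.S16.H756
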